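import Mathlib
import Fermat.Agent.S13.Iface.DP

/-!
# S13 / block DPU (owner helper9): the value of `preΨ'ₙ` at a `2`-torsion abscissa is a unit

* `DPU.val_preNormEDS'_zero_odd`: for the auxiliary sequence `preNormEDS' 0 c d` (first parameter
  `0`) the odd-indexed terms only involve odd-indexed terms:
  `W(2m+5) = - W(m+1) W(m+3)³` (`m` even), `W(2m+5) = W(m+4) W(m+2)³` (`m` odd); hence they are
  `± c ^ k`, and have valuation `1` as soon as `v c = 1`.
* `DPU.eval_Ψ₂Sq`, `DPU.eval_Ψ₃`: `Ψ₂Sq(β) = 0`, `Ψ₃(β) = -(β (β - α))²` for `legendre α β`.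
* `DPU.dp_unit`: the statement of `Iface/DPUnit.lean`.
-/

set_option autoImplicit false

namespace Fermat.Agent.S13.DPU

open Polynomial

/-- Odd-indexed terms of `preNormEDS' 0 c d` have valuation `1` if `v c = 1`. -/
theorem val_preNormEDS'_zero_odd {R : Type*} [CommRing R] {Γ₀ : Type*}
    [LinearOrderedCommGroupWithZero Γ₀] (v : Valuation R Γ₀) (c d : R) (hc : v c = 1) :
    ∀ n : ℕ, Odd n → v (preNormEDS' 0 c d n) = 1 := by
  intro n
  induction n using Nat.strong_induction_on with
  | _ n ih =>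
    intro hn
    obtain ⟨k, rfl⟩ := hn
    match k with
    | 0 => simp
    | 1 => simpa using hc
    | m + 2 =>
      rw [preNormEDS'_odd]
      by_cases hm : Even m
      · have h1 : Odd (m + 1) := hm.add_one
        have h3 : Odd (m + 3) := by
          have : m + 3 = (m + 2) + 1 := rfl
          rw [this]
          exact (hm.add (by decide : Even 2)).add_one
        rw [if_pos hm, if_pos hm, mul_zero, mul_one, zero_sub, Valuation.map_neg, map_mul, map_pow,
          ih (m + 1) (by omega) h1, ih (m + 3) (by omega) h3]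
        simp
      · have hodd : Odd m := Nat.not_even_iff_odd.mp hm
        have h4 : Odd (m + 4) := hodd.add_even (by decide)
        have h2 : Odd (m + 2) := hodd.add_even (by decide)
        rw [if_neg hm, if_neg hm, mul_zero, mul_one, sub_zero, map_mul, map_pow,
          ih (m + 4) (by omega) h4, ih (m + 2) (by omega) h2]
        simp

theorem eval_Ψ₂Sq {K : Type*} [CommRing K] (α β : K) :
    ((legendre α β).Ψ₂Sq).eval β = 0 := by
  simp only [WeierstrassCurve.Ψ₂Sq, WeierstrassCurve.b₂, WeierstrassCurve.b₄,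
    WeierstrassCurve.b₆, legendre, eval_add, eval_mul, eval_C, eval_pow, eval_X]
  ring

theorem eval_Ψ₃ {K : Type*} [CommRing K] (α β : K) :
    ((legendre α β).Ψ₃).eval β = -(β * (β - α)) ^ 2 := by
  simp only [WeierstrassCurve.Ψ₃, WeierstrassCurve.b₂, WeierstrassCurve.b₄,
    WeierstrassCurve.b₆, WeierstrassCurve.b₈, legendre, eval_add, eval_mul, eval_C, eval_pow,
    eval_X, eval_ofNat]
  ring

/-- The statement of `Iface/DPUnit.lean`. -/
theorem dp_unit {K : Type*} [Field K] {Γ₀ : Type*} [LinearOrderedCommGroupWithZero Γ₀]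
    (v : Valuation K Γ₀) {α β : K} (hβ : v β = 1) (hαβ : v (α - β) = 1) {n : ℕ} (hn : Odd n) :
    v (((legendre α β).preΨ' n).eval β) = 1 := by
  have h1 : ((legendre α β).preΨ' n).eval β =
      preNormEDS' 0 (((legendre α β).Ψ₃).eval β) (((legendre α β).preΨ₄).eval β) n := by
    have h := map_preNormEDS' (evalRingHom β) ((legendre α β).Ψ₂Sq ^ 2) ((legendre α β).Ψ₃)
      ((legendre α β).preΨ₄) n
    rw [coe_evalRingHom, eval_pow, eval_Ψ₂Sq] at h
    rw [WeierstrassCurve.preΨ', h]
    norm_num
  rw [h1]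
  refine val_preNormEDS'_zero_odd v _ _ ?_ n hn
  rw [eval_Ψ₃, Valuation.map_neg, map_pow, map_mul, hβ, ← Valuation.map_neg, neg_sub, hαβ]
  simp

end Fermat.Agent.S13.DPU
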